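import Mathlib
import Fermat.Prelude.Def_FLTPrelim_FreyPackage
import Fermat.Prelude.Def_FLTPrelim_Modularity
import Fermat.Prelude.Def_FLTPrelim_ModularRep

/-!
# Frey curves of arbitrary triples

For coprime integers `A = 4m + 3`, `B = 32k` with `AB(A + B) ≠ 0` the curve
`y² + xy = x³ + ((B - A - 1)/4) x² - (AB/16) x` (a model of `Y² = X (X - A) (X + B)`) is semistable, with
`Δ = (AB(A + B)/16)²` and `c₄ = A² + AB + B²`.

The files in `Fermat/Agent/Cor` are not used by any of the statement files.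
-/

set_option autoImplicit false

namespace Fermat.Agent.Cor.FreyAB

open WeierstrassCurve

/-- the data of a Frey curve: `A = 4m + 3`, `B = 32k` -/
structure Data where
  m : ℤ
  k : ℤ
  hk : k ≠ 0
  hC : 4 * m + 3 + 32 * k ≠ 0
  hcop : IsCoprime (4 * m + 3) (32 * k)

namespace Data

variable (D : Data)

/-- `A ≡ 3 mod 4` -/
def A : ℤ := 4 * D.m + 3

/-- `B ≡ 0 mod 32` -/
def B : ℤ := 32 * D.k

/-- the Frey curve -/
def W : WeierstrassCurve ℤ := ⟨1, 8 * D.k - D.m - 1, 0, -2 * D.k * (4 * D.m + 3), 0⟩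

theorem A_def : D.A = 4 * D.m + 3 := rfl
theorem B_def : D.B = 32 * D.k := rfl

theorem cop : IsCoprime D.A D.B := D.hcop

theorem A_odd : ¬ (2 : ℤ) ∣ D.A := by
  rw [A_def]; omega

theorem A_ne_zero : D.A ≠ 0 := by
  rw [A_def]; omega

theorem B_ne_zero : D.B ≠ 0 := mul_ne_zero (by norm_num) D.hk

theorem C_ne_zero : D.A + D.B ≠ 0 := D.hC

theorem thirty_two_dvd_B : (32 : ℤ) ∣ D.B := ⟨D.k, rfl⟩

@[simp] theorem W_a₁ : D.W.a₁ = 1 := rfl
@[simp] theorem W_a₃ : D.W.a₃ = 0 := rfl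
@[simp] theorem W_a₆ : D.W.a₆ = 0 := rfl
theorem W_a₂ : D.W.a₂ = 8 * D.k - D.m - 1 := rfl
theorem W_a₄ : D.W.a₄ = -2 * D.k * (4 * D.m + 3) := rfl

theorem c₄_eq : D.W.c₄ = D.A ^ 2 + D.A * D.B + D.B ^ 2 := by
  simp only [WeierstrassCurve.c₄, WeierstrassCurve.b₂, WeierstrassCurve.b₄, W_a₁, W_a₃, W_a₂, W_a₄,
    A_def, B_def]
  ring

theorem Δ_eq : D.W.Δ = (2 * D.k * D.A * (D.A + D.B)) ^ 2 := by
  simp only [WeierstrassCurve.Δ, WeierstrassCurve.b₂, WeierstrassCurve.b₄, WeierstrassCurve.b₆,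
    WeierstrassCurve.b₈, W_a₁, W_a₃, W_a₂, W_a₄, W_a₆, A_def, B_def]
  ring

theorem Δ_ne_zero : D.W.Δ ≠ 0 := by
  rw [Δ_eq]
  exact pow_ne_zero _ (mul_ne_zero (mul_ne_zero (mul_ne_zero two_ne_zero D.hk) D.A_ne_zero)
    D.C_ne_zero)

theorem two_dvd_Δ : (2 : ℤ) ∣ D.W.Δ := by
  rw [Δ_eq]
  exact ⟨2 * (D.k * D.A * (D.A + D.B)) ^ 2, by ring⟩

theorem dvd_ABC {q : ℕ} (hq : q.Prime) (h : (q : ℤ) ∣ D.W.Δ) :
    (q : ℤ) ∣ D.A * D.B * (D.A + D.B) := by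
  have hqp := Nat.prime_iff_prime_int.mp hq
  rw [Δ_eq] at h
  have h1 := hqp.dvd_of_dvd_pow h
  have h2 := Dvd.dvd.mul_left h1 16
  have e : 16 * (2 * D.k * D.A * (D.A + D.B)) = D.A * D.B * (D.A + D.B) := by
    rw [B_def]; ring
  rwa [e] at h2

theorem not_dvd_both {q : ℕ} (hq : q.Prime) (h1 : (q : ℤ) ∣ D.A) (h2 : (q : ℤ) ∣ D.B) : False :=
  (Nat.prime_iff_prime_int.mp hq).not_isUnit (D.cop.isUnit_of_dvd' h1 h2)

theorem semistable : D.W.IsSemistableModel := by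
  intro q hq hΔ hc4
  have hqp := Nat.prime_iff_prime_int.mp hq
  have habc := D.dvd_ABC hq hΔ
  rw [c₄_eq] at hc4
  rcases hqp.dvd_or_dvd habc with h | h
  · rcases hqp.dvd_or_dvd h with h | h
    · have h2 : (q : ℤ) ∣ D.B ^ 2 := by
        have : D.B ^ 2 = (D.A ^ 2 + D.A * D.B + D.B ^ 2) - D.A * (D.A + D.B) := by ring
        rw [this]
        exact dvd_sub hc4 (Dvd.dvd.mul_right h _)
      exact D.not_dvd_both hq h (hqp.dvd_of_dvd_pow h2)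
    · have h2 : (q : ℤ) ∣ D.A ^ 2 := by
        have : D.A ^ 2 = (D.A ^ 2 + D.A * D.B + D.B ^ 2) - D.B * (D.A + D.B) := by ring
        rw [this]
        exact dvd_sub hc4 (Dvd.dvd.mul_right h _)
      exact D.not_dvd_both hq (hqp.dvd_of_dvd_pow h2) h
  · have h2 : (q : ℤ) ∣ D.A ^ 2 := by
      have : D.A ^ 2 = (D.A ^ 2 + D.A * D.B + D.B ^ 2) - D.B * (D.A + D.B) := by ring
      rw [this]
      exact dvd_sub hc4 (Dvd.dvd.mul_left h _)
    have h3 := hqp.dvd_of_dvd_pow h2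
    exact D.not_dvd_both hq h3 ((Int.dvd_iff_dvd_of_dvd_add h).mp h3)

/-- the curve over `ℚ` -/
abbrev WQ : WeierstrassCurve ℚ := D.W.map (Int.castRingHom ℚ)

end Data

end Fermat.Agent.Cor.FreyAB
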