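import Mathlib
import Fermat.Agent.Cor.FreyAB.Basic
import Fermat.Agent.H09.S12Red

/-!
# A reducible `W[p]` contains a cofixed line
-/

set_option autoImplicit false

namespace Fermat.Agent.Cor.FreyAB

open WeierstrassCurve WeierstrassCurve.Affine WeierstrassCurve.Affine.Point
open Fermat.Agent.H08 Fermat.Agent.H09 Fermat.Agent.H05
open WithZero

local notation "v₂" => Rat.padicValuation 2

variable (D : Data)

theorem W_a₄_Vn : ∃ m : ℤ, Vn v₂ m (D.WQ⁄ℚ).a₄ ∧ 1 ≤ m ∧ m = 1 + padicValInt 2 D.k := by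
  have hV2 : Vn v₂ 1 (2 : ℚ) := by
    have := Rat.padicValuation_self 2
    unfold Vn
    exact_mod_cast this
  have hVa : Vn v₂ 0 (D.A : ℚ) := by
    unfold Vn
    rw [_root_.neg_zero, exp_zero, Rat.padicValuation_cast, Int.padicValuation_eq_one_iff]
    exact D.A_odd
  have hVk : Vn v₂ (padicValInt 2 D.k) (D.k : ℚ) := by
    have hk' : (D.k : ℚ) ≠ 0 := by exact_mod_cast D.hk
    change (if (D.k : ℚ) = 0 then 0 else exp (-padicValRat 2 (D.k : ℚ))) = _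
    rw [if_neg hk', padicValRat.of_int]
  refine ⟨1 + padicValInt 2 D.k, ?_, by omega, rfl⟩
  have h1 := ((hV2.mul hVk).mul hVa).neg
  rw [add_zero] at h1
  have e : (D.WQ⁄ℚ).a₄ = -(2 * (D.k : ℚ) * (D.A : ℚ)) := by
    change ((D.W.a₄ : ℤ) : ℚ) = _
    rw [D.W_a₄, D.A_def]
    push_cast
    ring
  rw [e]
  exact h1

/-- The Frey curve has no rational point of order `p`. -/
theorem no_rational_torsion' {p : ℕ} (hp : p.Prime) (hp5 : 5 ≤ p)
    (hpk : ¬ (p : ℤ) ∣ 1 + padicValInt 2 D.k) {Q : (D.WQ⁄ℚ).Point} (hQ : Q ≠ 0)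
    (hpQ : p • Q = 0) : False := by
  obtain ⟨m, h1, h2, rfl⟩ := W_a₄_Vn D
  refine no_rational_torsion (W := (D.WQ⁄ℚ)) (m := 1 + padicValInt 2 D.k) (p := p) ?_ ?_ ?_ ?_ ?_ h2
    hp hp5 hpk hQ hpQ
  · rfl
  · rfl
  · rfl
  · rw [Dn_zero_iff]
    have h4 : (D.WQ⁄ℚ).a₂ = ((D.W.a₂ : ℤ) : ℚ) := rfl
    rw [h4, Rat.padicValuation_cast]
    exact Int.padicValuation_le_one 2 _
  · exact h1

/-- a Galois stable line is cofixed -/
theorem cofixed {p : ℕ} (hp : p.Prime) (hp5 : 5 ≤ p) (hpk : ¬ (p : ℤ) ∣ 1 + padicValInt 2 D.k)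
    (hred : ¬ D.W.ModRepIsIrreducible p) :
    HasGaloisStableCofixedLine (K := AlgebraicClosure ℚ) ℚ D.WQ p := by
  classical
  have hfact : Fact p.Prime := ⟨hp⟩
  have hmap : D.W.map (Int.castRingHom (AlgebraicClosure ℚ)) = (D.WQ⁄(AlgebraicClosure ℚ)) :=
    map_int_Qb D.W
  have hgal : IsGalois ℚ (AlgebraicClosure ℚ) :=
    { to_normal := { splits' := fun x => IsAlgClosed.splits _ } }
  have hΔ : (D.WQ⁄(AlgebraicClosure ℚ)).Δ ≠ 0 := Δ_Qb_ne_zero D.Δ_ne_zero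
  have hnt : Nontrivial
      (Submodule.torsionBy ℤ (D.WQ⁄(AlgebraicClosure ℚ)).Point (p : ℤ)) := by
    obtain ⟨Q, hQ, hpQ⟩ := exists_torsion (W := (D.WQ⁄(AlgebraicClosure ℚ))) hΔ
      (hp.odd_of_ne_two (by omega)) (by omega) (Nat.cast_ne_zero.mpr hp.ne_zero)
    exact ⟨⟨⟨Q, mem_torsion_iff.mpr hpQ⟩, 0, fun h => hQ (congrArg Subtype.val h)⟩⟩
  have hex : ∃ N : Submodule (ZMod p)
      (Submodule.torsionBy ℤ (D.WQ⁄(AlgebraicClosure ℚ)).Point (p : ℤ)),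
      IsGaloisStable ℚ N ∧ N ≠ ⊥ ∧ N ≠ ⊤ := by
    by_contra hcon
    apply hred
    refine ⟨hnt, fun N hN => ?_⟩
    by_contra h
    push Not at h
    exact hcon ⟨N, hN, h.1, h.2⟩
  obtain ⟨N, hN, hb, ht⟩ := hex
  rcases dichotomy hmap D.Δ_ne_zero D.semistable hp5 N hN hb ht with h | h
  · exfalso
    obtain ⟨x, hxN, hx0⟩ := (Submodule.ne_bot_iff N).mp hb
    have h0 : (x : (D.WQ⁄(AlgebraicClosure ℚ)).Point) ≠ 0 :=
      fun h' => hx0 (Subtype.ext h')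
    obtain ⟨Q, hQ, hpQ⟩ := exists_rational_point h0
      (fun σ => congrArg Subtype.val (h σ x hxN)) (mem_torsion_iff.mp x.2)
    exact no_rational_torsion' D hp hp5 hpk hQ hpQ
  · exact ⟨N, hN, hb, ht, h⟩

end Fermat.Agent.Cor.FreyAB
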