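import Mathlib
import Fermat.Agent.Cor.FreyAB.Endgame

/-!
# `W[p]` is irreducible for `p ≥ 17`
-/

set_option autoImplicit false

namespace Fermat.Agent.Cor.FreyAB

open Polynomial WeierstrassCurve WeierstrassCurve.Affine WeierstrassCurve.Affine.Point
open Fermat.Agent.H08 Fermat.Agent.H05 Fermat.Agent.H09

local notation "Qb" => AlgebraicClosure ℚ

/-- **Reduction of S12** to the propagation of type I. -/
theorem no_cofixed_of (D : Data) {p : ℕ} (hp : p.Prime) (hp17 : 17 ≤ p)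
    (hpk : ¬ (p : ℤ) ∣ 1 + padicValInt 2 D.k)
    (hprop : ∀ C : AddSubgroup ((D.W.map (Int.castRingHom ℚ))⁄Qb).Point,
      CofixedLine D.W p C → (3 : ℤ) ∣ D.W.Δ →
      (∀ A : ValuationSubring Qb, A.LiesOverPrime 2 →
        ∀ Q ∈ C, D.W.InZeroComponentAt A Q) →
      (∀ A : ValuationSubring Qb, A.LiesOverPrime 3 →
        ∀ Q ∈ C, D.W.InZeroComponentAt A Q) →
      ∀ ℓ : ℕ, ℓ.Prime → ℓ ≠ p → (ℓ : ℤ) ∣ D.W.Δ →
        ¬ (ℓ : ℤ) ∣ D.W.c₄ → ∀ A : ValuationSubring Qb, A.LiesOverPrime ℓ →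
        ∀ Q ∈ C, D.W.InZeroComponentAt A Q) :
    ¬ HasGaloisStableCofixedLine (K := Qb) ℚ D.WQ p := by
  intro hcl
  have hfact : Fact p.Prime := ⟨hp⟩
  have hp5 : 5 ≤ p := by omega
  have hgal : IsGalois ℚ Qb := { to_normal := { splits' := fun x => IsAlgClosed.splits _ } }
  set W := D.W with hWdef
  have hΔ0 : W.Δ ≠ 0 := D.Δ_ne_zero
  have hss : W.IsSemistableModel := D.semistable
  obtain ⟨N, hN, hb, ht, hcof⟩ := hcl
  obtain ⟨hfinM, hrank⟩ := finrank_torsion (L := Qb) (W₀ := W.map (Int.castRingHom ℚ))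
    (p := p) (by omega)
  obtain ⟨hatom, hcoatom, hrN⟩ := atom_coatom hrank hb ht
  obtain ⟨hfin, -⟩ := finite_torsion (L := Qb) (W₀ := W.map (Int.castRingHom ℚ)) hp
    (by omega)
  have hint : ∀ A : ValuationSubring Qb,
      IsIntegralFor A.valuation ((W.map (Int.castRingHom ℚ))⁄Qb) :=
    fun A => isIntegralFor_of_int (map_int_Qb W)
  -- the subgroup
  let C : AddSubgroup ((W.map (Int.castRingHom ℚ))⁄Qb).Point :=
    N.toAddSubgroup.map (Submodule.subtype (Submodule.torsionBy ℤ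
      ((W.map (Int.castRingHom ℚ))⁄Qb).Point (p : ℤ))).toAddMonoidHom
  have hmemC : ∀ Q, Q ∈ C ↔ ∃ x ∈ N, (x : ((W.map (Int.castRingHom ℚ))⁄Qb).Point) = Q := by
    intro Q
    rfl
  have hcardN : Nat.card N = p := by
    rw [Module.natCard_eq_pow_finrank (K := ZMod p), hrN, Nat.card_zmod, pow_one]
  have hC : CofixedLine W p C := by
    refine ⟨?_, ?_, ?_⟩
    · rw [← hcardN]
      symm
      refine Nat.card_congr (Equiv.ofBijective
        (fun x : N => (⟨(x.1 : ((W.map (Int.castRingHom ℚ))⁄Qb).Point),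
          (hmemC _).mpr ⟨x.1, x.2, rfl⟩⟩ : C)) ⟨?_, ?_⟩)
      · intro x y hxy
        have h1 := congrArg (fun z : C => (z : ((W.map (Int.castRingHom ℚ))⁄Qb).Point)) hxy
        exact Subtype.ext (Subtype.ext h1)
      · rintro ⟨Q, hQ⟩
        obtain ⟨x, hx, rfl⟩ := (hmemC Q).mp hQ
        exact ⟨⟨x, hx⟩, rfl⟩
    · intro σ Q hQ
      obtain ⟨x, hx, rfl⟩ := (hmemC Q).mp hQ
      exact (hmemC _).mpr ⟨σ • x, hN σ x hx, rfl⟩
    · intro σ Q hQ
      exact (hmemC _).mpr ⟨σ • (⟨Q, mem_torsion_iff.mpr hQ⟩ : Submodule.torsionBy ℤ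
        ((W.map (Int.castRingHom ℚ))⁄Qb).Point (p : ℤ)) - ⟨Q, mem_torsion_iff.mpr hQ⟩,
        hcof σ _, rfl⟩
  -- multiplicative reduction at 3
  have h3 : (3 : ℤ) ∣ W.Δ := by
    by_contra h3
    obtain ⟨A, hA⟩ := exists_liesOverPrime Qb Nat.prime_three
    have hv3 : A.valuation ((W.map (Int.castRingHom ℚ))⁄Qb).Δ = 1 := by
      rw [← map_int_Qb, map_Δ]
      exact H08.val_intCast_eq_one Nat.prime_three hA h3
    exact not_good_of_cofixed hp Nat.prime_three hA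
      (val_prime_eq_one hp Nat.prime_three (by omega) hA) (hint A) hv3 ht hcof hfin (by omega)
  have htype : ∀ ℓ : ℕ, ℓ.Prime → ℓ ≠ p → (ℓ : ℤ) ∣ W.Δ → ¬ p ∣ ℓ ^ 2 - 1 →
      ∀ A : ValuationSubring Qb, A.LiesOverPrime ℓ → ∀ Q ∈ C, W.InZeroComponentAt A Q := by
    intro ℓ hℓ hℓp hℓΔ hnd A hA
    by_contra hcon
    exact hnd (hC.dvd_of_not_inZeroComponentAt hΔ0 hp (by omega) hℓ hℓp hℓΔ
      (hss ℓ hℓ hℓΔ) hA hcon)
  have hall := hprop C hC h3
    (htype 2 Nat.prime_two (by omega) D.two_dvd_Δ (by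
      intro h; have := Nat.le_of_dvd (by norm_num) h; omega))
    (htype 3 Nat.prime_three (by omega) h3 (by
      intro h; have := Nat.le_of_dvd (by norm_num) h; omega))
  -- a generator
  obtain ⟨x₀, hx₀N, hx₀⟩ := (Submodule.ne_bot_iff N).mp hb
  have hP0 : (x₀ : ((W.map (Int.castRingHom ℚ))⁄Qb).Point) ≠ 0 :=
    fun h' => hx₀ (Subtype.ext h')
  have hpP : p • (x₀ : ((W.map (Int.castRingHom ℚ))⁄Qb).Point) = 0 := mem_torsion_iff.mp x₀.2
  have hord : addOrderOf (x₀ : ((W.map (Int.castRingHom ℚ))⁄Qb).Point) = p :=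
    addOrderOf_eq_prime hpP hP0
  have hfinC : Finite C := Nat.finite_of_card_ne_zero (by rw [hC.card]; exact hp.ne_zero)
  have hP0C : (x₀ : ((W.map (Int.castRingHom ℚ))⁄Qb).Point) ∈ C :=
    (hmemC _).mpr ⟨x₀, hx₀N, rfl⟩
  have hcyc : ∀ Q, Q ∈ cyc p (x₀ : ((W.map (Int.castRingHom ℚ))⁄Qb).Point) ↔
      Q ∈ C ∧ Q ≠ 0 := by
    intro Q
    constructor
    · intro hQ
      obtain ⟨k, hk, rfl⟩ := Finset.mem_image.mp hQ
      refine ⟨C.nsmul_mem hP0C k, ?_⟩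
      rw [Finset.mem_Ico] at hk
      intro h0
      have : p ∣ k := by rw [← hord]; exact addOrderOf_dvd_of_nsmul_eq_zero h0
      have := Nat.le_of_dvd (by omega) this
      omega
    · rintro ⟨hQ, hQ0⟩
      have hle : AddSubgroup.zmultiples (x₀ : ((W.map (Int.castRingHom ℚ))⁄Qb).Point) ≤ C := by
        rw [AddSubgroup.zmultiples_le]; exact hP0C
      have heq : AddSubgroup.zmultiples (x₀ : ((W.map (Int.castRingHom ℚ))⁄Qb).Point) = C := by
        apply AddSubgroup.eq_of_le_of_card_ge hle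
        rw [hC.card, Nat.card_zmultiples, hord]
      rw [← heq, AddSubgroup.mem_zmultiples_iff] at hQ
      obtain ⟨k, rfl⟩ := hQ
      have hk := Int.emod_nonneg k (b := (p : ℤ)) (by exact_mod_cast hp.ne_zero)
      have hk2 := Int.emod_lt_of_pos k (b := (p : ℤ)) (by exact_mod_cast hp.pos)
      obtain ⟨m, hm⟩ := Int.eq_ofNat_of_zero_le hk
      have hkm : k • (x₀ : ((W.map (Int.castRingHom ℚ))⁄Qb).Point) =
          m • (x₀ : ((W.map (Int.castRingHom ℚ))⁄Qb).Point) := by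
        have h1 := mod_addOrderOf_zsmul (x₀ : ((W.map (Int.castRingHom ℚ))⁄Qb).Point) k
        rw [hord, hm, natCast_zsmul] at h1
        exact h1.symm
      rw [hkm] at hQ0 ⊢
      refine Finset.mem_image.mpr ⟨m, ?_, rfl⟩
      rw [Finset.mem_Ico]
      constructor
      · rw [Nat.one_le_iff_ne_zero]
        rintro rfl
        exact hQ0 (zero_smul _ _)
      · rw [hm] at hk2; exact_mod_cast hk2
  refine endgame D hp hp5 hord ?_ ?_
  · intro σ Q hQ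
    rw [hcyc] at hQ ⊢
    exact ⟨hC.stable σ Q hQ.1, smul_ne_zero' σ hQ.2⟩
  · intro ℓ hℓ A hA Q hQ hx
    rw [hcyc] at hQ
    by_cases hℓΔ : (ℓ : ℤ) ∣ W.Δ
    · by_cases hℓp : ℓ = p
      · subst hℓp
        obtain ⟨-, r, t, α, β, hnd⟩ := exists_nodeData_int hΔ0 hp hℓΔ (hss _ hp hℓΔ) hA
        have hnf : ¬ ∀ σ : Qb ≃ₐ[ℚ] Qb, ∀ x ∈ N, σ • x = x := by
          intro hf
          obtain ⟨Q', hQ', hpQ'⟩ := exists_rational_point hP0
            (fun σ => congrArg Subtype.val (hf σ x₀ hx₀N)) hpP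
          exact no_rational_torsion' D hp hp5 hpk hQ' hpQ'
        obtain ⟨x, hx', rfl⟩ := (hmemC Q).mp hQ.1
        exact (nodeE0_iff_nonsingularRed hnd).mp (nodeE0_at_p (map_int_Qb W) hΔ0 hss hp5 hN
          hatom hcoatom hnf hA hnd x hx') hQ.2 hx
      · exact inZeroComponentAt_iff.mp (hall ℓ hℓ hℓp hℓΔ (hss ℓ hℓ hℓΔ) A hA Q hQ.1) hQ.2 hx
    · have hv : A.valuation ((W.map (Int.castRingHom ℚ))⁄Qb).Δ = 1 := by
        rw [← map_int_Qb, map_Δ]
        exact H08.val_intCast_eq_one hℓ hA hℓΔ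
      exact nonsingularRed_of_Δ (hint A) hv hQ.2 hx

/-- there is no cofixed line -/
theorem no_cofixed (D : Data) {p : ℕ} (hp : p.Prime) (hp17 : 17 ≤ p)
    (hpk : ¬ (p : ℤ) ∣ 1 + padicValInt 2 D.k) :
    ¬ HasGaloisStableCofixedLine (K := Qb) ℚ D.WQ p := by
  have : NeZero p := ⟨hp.ne_zero⟩
  have h := Fermat.Agent.H12.allInputs hp (by omega) (by omega)
  refine no_cofixed_of D hp hp17 hpk ?_
  intro C hC h3Δ hI2 hI3 ℓ hℓ hℓp hℓΔ hℓc₄ A hA
  have hΔ0 : D.W.Δ ≠ 0 := D.Δ_ne_zero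
  have hss : D.W.IsSemistableModel := D.semistable
  have h2Δ : (2 : ℤ) ∣ D.W.Δ := D.two_dvd_Δ
  by_contra hcon
  have hd := hC.dvd_of_not_inZeroComponentAt hΔ0 hp (by omega) hℓ hℓp hℓΔ hℓc₄ hA hcon
  have hkey := (h.no_switch hp (by omega) (by omega) (by omega) (by omega) (by omega)
    D.W hΔ0 h2Δ (hss 2 Nat.prime_two h2Δ) h3Δ (hss 3 Nat.prime_three h3Δ) C hC.card
    hC.stable hℓ hd hℓΔ hℓc₄ A hA).1 hI2 hI3
  exact hcon hkey

/-- **Irreducibility**: for a prime `p ≥ 17` which does not divide `v₂(B) - 4` the Frey curve of `(A, B)` has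
irreducible `p`-torsion. -/
theorem irreducible (D : Data) {p : ℕ} (hp : p.Prime) (hp17 : 17 ≤ p)
    (hpk : ¬ (p : ℤ) ∣ 1 + padicValInt 2 D.k) : D.W.ModRepIsIrreducible p := by
  by_contra h
  exact no_cofixed D hp hp17 hpk (cofixed D hp (by omega) hpk h)

theorem padicValInt_two_mul (k : ℤ) (hk : k ≠ 0) : padicValInt 2 (32 * k) = 5 + padicValInt 2 k := by
  have h32 : padicValInt 2 32 = 5 := by
    have e : (32 : ℤ) = ((2 ^ 5 : ℕ) : ℤ) := by norm_num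
    rw [e, padicValInt.of_nat, padicValNat.prime_pow]
  rw [padicValInt.mul (by norm_num) hk, h32]

/-- **Irreducibility**, for an arbitrary equation: `W : y² + xy = x³ + a₂x² + a₄x` with `4a₂ = B - A - 1`,
`16a₄ = -AB`, where `A`, `B` are coprime, `A ≡ 3 mod 4`, `32 ∣ B`, `B (A + B) ≠ 0`. -/
theorem irreducible_of {W : WeierstrassCurve ℤ} {A B : ℤ} (h1 : W.a₁ = 1) (h3 : W.a₃ = 0)
    (h6 : W.a₆ = 0) (h2 : 4 * W.a₂ = B - A - 1) (h4 : 16 * W.a₄ = -(A * B))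
    (hcop : IsCoprime A B) (hA : A % 4 = 3) (hB : (32 : ℤ) ∣ B) (hB0 : B ≠ 0) (hC : A + B ≠ 0)
    {p : ℕ} (hp : p.Prime) (hp17 : 17 ≤ p) (hpB : ¬ (p : ℤ) ∣ (padicValInt 2 B : ℤ) - 4) :
    W.ModRepIsIrreducible p := by
  obtain ⟨k, rfl⟩ := hB
  obtain ⟨m, rfl⟩ : ∃ m : ℤ, A = 4 * m + 3 := ⟨A / 4, by omega⟩
  have hk : k ≠ 0 := right_ne_zero_of_mul hB0
  let D : Data := ⟨m, k, hk, hC, hcop⟩
  have hW : W = D.W := by
    ext
    · exact h1
    · change W.a₂ = 8 * k - m - 1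
      omega
    · exact h3
    · change W.a₄ = -2 * k * (4 * m + 3)
      linarith
    · exact h6
  rw [hW]
  refine irreducible D hp hp17 ?_
  rw [padicValInt_two_mul k hk] at hpB
  push_cast at hpB
  have e : (5 : ℤ) + padicValInt 2 k - 4 = 1 + padicValInt 2 k := by ring
  rwa [e] at hpB

end Fermat.Agent.Cor.FreyAB
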